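/-
P-ES / KL-NORMTRICK (row 361, helper44): level change for the KEY LEMMA by the norm.

If `[F_{N M} : F_N]` is a power of `ℓ`, then `KL(N M, ℓ)` implies `KL(N, ℓ)`:
the hypothesis `m ∣ ord_P (a / b)` passes from the places of `F_N` to the places of `F_{N M}`
(`ord_{P'} = e · ord_P`), `KL(N M, ℓ)` gives an `m`-th root `w'` of `a / b` in `F_{N M}`, and
`Norm(w') ^ m = (a / b) ^ d` with `d = [F_{N M} : F_N]` prime to `m`; Bezout finishes.
-/
import Mathlib
import Fermat.Prelude.Def_ModularCurve_HeckeOperator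
import Fermat.Agent.H22.ES.Interfaces

set_option autoImplicit false
set_option linter.style.haveILetI false

noncomputable section

namespace Fermat.Agent.H44

open AlgebraicCurve ModularCurve Fermat.Agent.H22.ES

/-- Field-theoretic core of the norm trick: if `φ u` is an `m`-th power in `F'` and the degree
of `F'` over `φ F` is finite and prime to `m`, then `u` is an `m`-th power in `F`. -/
theorem klnt_exists_pow_eq {K F F' : Type*} [Field K] [Field F] [Field F']
    [Algebra K F] [Algebra K F'] (φ : F →ₐ[K] F') (hfin : FiniteAlong K φ)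
    {m : ℕ} (hcop : Nat.Coprime m (finrankAlong K φ))
    {u : F} (hu : u ≠ 0) {w' : F'} (hw : w' ^ m = φ u) : ∃ w : F, w ^ m = u := by
  letI := algebraAlong φ
  haveI : Module.Finite F F' := hfin
  set d : ℕ := finrankAlong K φ with hd
  have hdfin : Module.finrank F F' = d := rfl
  have hnorm : (Algebra.norm F w') ^ m = u ^ d := by
    rw [← map_pow, hw]
    have h1 : φ u = algebraMap F F' u := rfl
    rw [h1, Algebra.norm_algebraMap, hdfin]
  have hbez : (m : ℤ) * Nat.gcdA m d + (d : ℤ) * Nat.gcdB m d = 1 := by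
    have h := Nat.gcd_eq_gcd_ab m d
    rw [hcop.gcd_eq_one] at h
    exact_mod_cast h.symm
  set nrm : F := Algebra.norm F w' with hnrm
  refine ⟨u ^ (Nat.gcdA m d) * nrm ^ (Nat.gcdB m d), ?_⟩
  have h2 : (nrm ^ (Nat.gcdB m d)) ^ (m : ℤ) = u ^ ((d : ℤ) * Nat.gcdB m d) := by
    rw [← zpow_mul, mul_comm, zpow_mul, zpow_natCast, hnorm, ← zpow_natCast u d, ← zpow_mul]
  have h3 : (u ^ (Nat.gcdA m d)) ^ (m : ℤ) = u ^ ((m : ℤ) * Nat.gcdA m d) := by
    rw [← zpow_mul, mul_comm]
  rw [← zpow_natCast, mul_zpow, h2, h3, ← zpow_add₀ hu, hbez, zpow_one]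

/-- Injectivity of `coeffMap` along an injective ring homomorphism, in the form needed here. -/
theorem klnt_coeffMap_ne_zero {R S : Type*} [CommRing R] [CommRing S] (f : R →+* S)
    {x : LaurentSeries R} (hx : coeffMap f x ≠ 0) : x ≠ 0 := by
  rintro rfl
  exact hx (map_zero _)

theorem klnt_coeffMap_subtype_ne_zero {L : Type*} [Field L] (A : ValuationSubring L)
    {x : LaurentSeries A} (hx : x ≠ 0) : coeffMap A.subtype x ≠ 0 := by
  intro h0
  apply hx
  ext k
  have h1 := congrArg (fun y : LaurentSeries L => y.coeff k) h0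
  simp only [coeffMap_coeff, HahnSeries.coeff_zero] at h1
  have h2 : ((x.coeff k : A) : L) = 0 := h1
  have h3 : x.coeff k = 0 := Subtype.ext h2
  simpa using h3

/-- **KL-NORMTRICK**, general form: if the degree of `F_{N M}` over `F_N` is a power of the
prime `ℓ`, then the key lemma at level `N M` implies the key lemma at level `N`. -/
theorem kl_normTrick (N M ℓ : ℕ) [NeZero N] [NeZero M] (hℓ : ℓ.Prime)
    (hfin : FiniteAlong (AlgebraicClosure ℚ) (heckeAlphaBar (AlgebraicClosure ℚ) N M))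
    (hdeg : ∃ k : ℕ,
      finrankAlong (AlgebraicClosure ℚ) (heckeAlphaBar (AlgebraicClosure ℚ) N M) = ℓ ^ k)
    (h : KeyLemmaStatement (N * M) ℓ) : KeyLemmaStatement N ℓ := by
  intro A hA m hm hℓm a b ha hb hred hne hord
  set φ := heckeAlphaBar (AlgebraicClosure ℚ) N M with hφdef
  have hφ : φ.toRingHom.IsIntegral := by
    letI := algebraAlong φ
    haveI : Module.Finite ↥(modularFunctionFieldBar N) ↥(modularFunctionFieldBar (N * M)) := hfin
    intro x
    exact Algebra.IsIntegral.isIntegral (R := ↥(modularFunctionFieldBar N)) x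
  have ha' : coeffMap A.subtype a ∈ modularFunctionFieldBar (N * M) := (φ ⟨_, ha⟩).2
  have hb' : coeffMap A.subtype b ∈ modularFunctionFieldBar (N * M) := (φ ⟨_, hb⟩).2
  have hφa : φ ⟨_, ha⟩ = ⟨coeffMap A.subtype a, ha'⟩ := rfl
  have hφb : φ ⟨_, hb⟩ = ⟨coeffMap A.subtype b, hb'⟩ := rfl
  -- nonvanishing
  have hb_red : coeffMap (IsLocalRing.residue A) b ≠ 0 := hred ▸ hne
  have ha0 : (⟨coeffMap A.subtype a, ha⟩ : modularFunctionFieldBar N) ≠ 0 := by
    intro h0
    exact klnt_coeffMap_subtype_ne_zero A (klnt_coeffMap_ne_zero _ hne)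
      (congrArg Subtype.val h0)
  have hb0 : (⟨coeffMap A.subtype b, hb⟩ : modularFunctionFieldBar N) ≠ 0 := by
    intro h0
    exact klnt_coeffMap_subtype_ne_zero A (klnt_coeffMap_ne_zero _ hb_red)
      (congrArg Subtype.val h0)
  -- the key lemma upstairs
  obtain ⟨w', hw'⟩ := h A hA m hm hℓm a b ha' hb' hred hne (by
    intro P'
    have e1 := Place.ord_restrictAlong φ hφ P' ⟨_, ha⟩
    have e2 := Place.ord_restrictAlong φ hφ P' ⟨_, hb⟩
    rw [hφa] at e1
    rw [hφb] at e2
    rw [e1, e2, ← mul_sub]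
    exact Dvd.dvd.mul_left (hord (P'.restrictAlong φ hφ)) _)
  -- descend by the norm
  have hcop : Nat.Coprime m (finrankAlong (AlgebraicClosure ℚ) φ) := by
    obtain ⟨k, hk⟩ := hdeg
    rw [hk]
    exact Nat.Coprime.pow_right k ((Nat.Prime.coprime_iff_not_dvd hℓ).mpr hℓm).symm
  have hb0' : (⟨coeffMap A.subtype b, hb'⟩ : modularFunctionFieldBar (N * M)) ≠ 0 := by
    rw [← hφb]
    exact (map_ne_zero φ).mpr hb0
  have hu : (⟨coeffMap A.subtype a, ha⟩ : modularFunctionFieldBar N)
      / ⟨coeffMap A.subtype b, hb⟩ ≠ 0 := div_ne_zero ha0 hb0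
  have hw : w' ^ m = φ ((⟨coeffMap A.subtype a, ha⟩ : modularFunctionFieldBar N)
      / ⟨coeffMap A.subtype b, hb⟩) := by
    rw [map_div₀, hφa, hφb, eq_div_iff hb0']
    exact hw'
  obtain ⟨w, hwm⟩ := klnt_exists_pow_eq φ hfin hcop hu hw
  exact ⟨w, by rw [hwm, div_mul_cancel₀ _ hb0]⟩

end Fermat.Agent.H44
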