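/-
P-ES / KL-NORMTRICK (row 361, helper44), part 2: the degree of `F_{N q}` over `F_N` over `ℚ̄`
and the unconditional level changes `KL(2N, 3) ⇒ KL(N, 3)` (`N` odd) and
`KL(3N, 2) ⇒ KL(N, 2)` (`3 ∤ N`).
-/
import Fermat.Agent.H44.KL.NormTrick
import Fermat.Agent.H17.ESD.BranchJ
import Fermat.Agent.H65.EsC.DegreeAlpha
import Fermat.Agent.H54.EsC.DegFinite

set_option autoImplicit false
set_option linter.style.haveILetI false

noncomputable section

namespace Fermat.Agent.H44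

open AlgebraicCurve ModularCurve IntermediateField Fermat.Agent.H22.ES
open scoped MatrixGroups

/-- `[F_{N q}(ℚ̄) : F_N(ℚ̄)] = q + 1` for a prime `q ∤ N`. -/
theorem klnt_finrankAlong_heckeAlphaBar (N q : ℕ) [NeZero N] [NeZero q]
    (hq : q.Prime) (hqN : ¬ q ∣ N) :
    finrankAlong (AlgebraicClosure ℚ) (heckeAlphaBar (AlgebraicClosure ℚ) N q) = q + 1 := by
  have h1 := Fermat.Agent.H17.ESD.finrank_eq_card N
  have h2 := Fermat.Agent.H17.ESD.finrank_eq_card (N * q)
  rw [Fermat.Agent.H65.finrank_adjoin_coe_eq_relfinrank] at h1 h2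
  have hle : modularFunctionFieldBar N ≤ modularFunctionFieldBar (N * q) := by
    intro x hx
    exact (heckeAlphaBar (AlgebraicClosure ℚ) N q ⟨x, hx⟩).2
  have hα : heckeAlphaBar (AlgebraicClosure ℚ) N q = IntermediateField.inclusion hle := rfl
  rw [hα, Fermat.Agent.H65.finrankAlong_inclusion_eq_relfinrank]
  have hJ : (AlgebraicClosure ℚ)⟮((Fermat.Agent.H23.jBar N :
      ↥(modularFunctionFieldBar N)) : LaurentSeries (AlgebraicClosure ℚ))⟯
        ≤ modularFunctionFieldBar N := by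
    rw [IntermediateField.adjoin_le_iff]
    rintro _ rfl
    exact (Fermat.Agent.H23.jBar N).2
  have hmul := IntermediateField.relfinrank_mul_relfinrank hJ hle
  have hj : ((Fermat.Agent.H23.jBar (N * q) : ↥(modularFunctionFieldBar (N * q))) :
      LaurentSeries (AlgebraicClosure ℚ))
      = ((Fermat.Agent.H23.jBar N : ↥(modularFunctionFieldBar N)) :
        LaurentSeries (AlgebraicClosure ℚ)) := rfl
  rw [hj] at h2
  rw [h1, h2] at hmul
  have hi1 : Nat.card (SL(2, ℤ) ⧸ CongruenceSubgroup.Gamma0 N) = ModularCurve.dedekindPsi N :=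
    Fermat.Agent.H57.index_Gamma0 N
  have hi2 : Nat.card (SL(2, ℤ) ⧸ CongruenceSubgroup.Gamma0 (N * q))
      = ModularCurve.dedekindPsi (N * q) :=
    Fermat.Agent.H57.index_Gamma0 (N * q)
  rw [hi1, hi2, Fermat.Agent.H57.dedekindPsi_mul_prime_of_not_dvd (NeZero.ne N) hq hqN,
    mul_comm] at hmul
  have hpos : 0 < ModularCurve.dedekindPsi N := by
    rw [← Fermat.Agent.H57.index_Gamma0 N]
    have : (CongruenceSubgroup.Gamma0 N).FiniteIndex := inferInstance
    exact Nat.pos_of_ne_zero (Subgroup.FiniteIndex.index_ne_zero)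
  exact Nat.eq_of_mul_eq_mul_right hpos hmul

/-- `F_{N q}(ℚ̄)` is finite over `F_N(ℚ̄)`. -/
theorem klnt_finiteAlong_heckeAlphaBar (N q : ℕ) [NeZero N] [NeZero q] (hq : q.Prime) :
    FiniteAlong (AlgebraicClosure ℚ) (heckeAlphaBar (AlgebraicClosure ℚ) N q) :=
  (Fermat.Agent.H54.degeneracyFinite (AlgebraicClosure ℚ) N q hq).1

/-- **KL-NORMTRICK at `ℓ = 3`**: for odd `N`, the key lemma at level `2 N` implies the key
lemma at level `N` (the degree `[F_{2N} : F_N] = 3` is a power of `3`). -/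
theorem kl_three_of_double (N : ℕ) [NeZero N] (h2 : ¬ 2 ∣ N) :
    KeyLemmaStatement (N * 2) 3 → KeyLemmaStatement N 3 :=
  kl_normTrick N 2 3 Nat.prime_three (klnt_finiteAlong_heckeAlphaBar N 2 Nat.prime_two)
    ⟨1, by rw [klnt_finrankAlong_heckeAlphaBar N 2 Nat.prime_two h2]; norm_num⟩

/-- **KL-NORMTRICK at `ℓ = 2`**: for `3 ∤ N`, the key lemma at level `3 N` implies the key
lemma at level `N` (the degree `[F_{3N} : F_N] = 4` is a power of `2`). -/
theorem kl_two_of_triple (N : ℕ) [NeZero N] (h3 : ¬ 3 ∣ N) :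
    KeyLemmaStatement (N * 3) 2 → KeyLemmaStatement N 2 :=
  kl_normTrick N 3 2 Nat.prime_two (klnt_finiteAlong_heckeAlphaBar N 3 Nat.prime_three)
    ⟨2, by rw [klnt_finrankAlong_heckeAlphaBar N 3 Nat.prime_three h3]; norm_num⟩

/-- `lcm` form at `ℓ = 3`: `KL(lcm(N, 2), 3) ⇒ KL(N, 3)` for every level `N`. -/
theorem kl_three_of_lcm (N : ℕ) [NeZero N] :
    KeyLemmaStatement (Nat.lcm N 2) 3 → KeyLemmaStatement N 3 := by
  by_cases h2 : 2 ∣ N
  · rw [Nat.lcm_eq_left h2]
    exact id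
  · have hc : Nat.Coprime N 2 := ((Nat.Prime.coprime_iff_not_dvd Nat.prime_two).mpr h2).symm
    rw [hc.lcm_eq_mul]
    exact kl_three_of_double N h2

/-- `lcm` form at `ℓ = 2`: `KL(lcm(N, 3), 2) ⇒ KL(N, 2)` for every level `N`. -/
theorem kl_two_of_lcm (N : ℕ) [NeZero N] :
    KeyLemmaStatement (Nat.lcm N 3) 2 → KeyLemmaStatement N 2 := by
  by_cases h3 : 3 ∣ N
  · rw [Nat.lcm_eq_left h3]
    exact id
  · have hc : Nat.Coprime N 3 := ((Nat.Prime.coprime_iff_not_dvd Nat.prime_three).mpr h3).symm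
    rw [hc.lcm_eq_mul]
    exact kl_two_of_triple N h3

end Fermat.Agent.H44
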